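/-
Lib / MvPSUFD, node CHG1: the shear `X i ↦ X i + c i X 0` (`c 0 = 0`) is an automorphism of `K⟦X₀, …, Xₙ⟧`.
Recipe: `hasSubst_of_constantCoeff_zero`; `subst_comp_subst_apply`, then
`subst (shear (-c)) (shear c i) = X i` by `subst_add`, `subst_mul`, `subst_X`, `subst_C` and `hc`; `subst_self`.
-/
import Fermat.Agent.Lib.MvPSUFD.Defs

set_option autoImplicit false

namespace Fermat.Agent.Lib.MvPSUFD

open MvPowerSeries

/-- the substitution `X i ↦ X i + c i X 0` -/
noncomputable def shear {K : Type*} [Field K] {n : ℕ} (c : Fin (n + 1) → K) :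
    Fin (n + 1) → MvPowerSeries (Fin (n + 1)) K := fun i => X i + C (c i) * X 0

theorem hasSubst_shear {K : Type*} [Field K] {n : ℕ} (c : Fin (n + 1) → K) :
    HasSubst (shear c) := by
  apply hasSubst_of_constantCoeff_zero
  intro i
  simp [shear]

/-- CHG1: the shear is an automorphism. -/
theorem subst_shear_neg {K : Type*} [Field K] {n : ℕ} (c : Fin (n + 1) → K) (hc : c 0 = 0)
    (f : MvPowerSeries (Fin (n + 1)) K) : subst (shear (-c)) (subst (shear c) f) = f := by
  have h1 := hasSubst_shear c
  have h2 := hasSubst_shear (-c)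
  rw [subst_comp_subst_apply h1 h2]
  have h3 : (fun i => subst (shear (-c)) (shear c i)) =
      (X : Fin (n + 1) → MvPowerSeries (Fin (n + 1)) K) := by
    funext i
    have h0 : shear (-c) 0 = (X 0 : MvPowerSeries (Fin (n + 1)) K) := by
      simp [shear, hc]
    conv_lhs => rw [shear]
    rw [subst_add h2, subst_mul h2, subst_X h2, subst_X h2, subst_C, h0]
    simp only [shear, Pi.neg_apply, map_neg]
    ring
  rw [h3, subst_self]
  rfl

end Fermat.Agent.Lib.MvPSUFD
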