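/-
Lib / MvPSUFD, node CHG2: the coefficient of `X₀ ^ k` after the shear.
Recipe: `coeff_subst (hasSubst_shear c) f (single 0 k)` is a `finsum` over `d` of
`coeff d f • coeff (single 0 k) (d.prod fun i e => shear c i ^ e)`.  To compute the second factor use the ring
homomorphism `ε := (PowerSeries.map constantCoeff).comp (finSuccEquiv K n)` to `K⟦X⟧`:
`PowerSeries.coeff k (ε g) = coeff (single 0 k) g` (`coeff_coeff_finSuccEquiv` with `x = 0`,
`Finsupp.cons k 0 = single 0 k`), `ε (X 0) = X`, `ε (X j.succ) = 0`, `ε (C a) = C a`, so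
`ε (shear c i) = C (if i = 0 then 1 else c i) * X` and
`ε (∏ shear c i ^ d i) = C (∏ (..) ^ d i) * X ^ (∑ d i)`.  Hence the term vanishes unless `∑ d i = k`
(`Finset.mem_finsuppAntidiag`), and `finsum_eq_sum_of_support_subset`.
-/
import Fermat.Agent.Lib.MvPSUFD.Change.Aut

set_option autoImplicit false

namespace Fermat.Agent.Lib.MvPSUFD

open MvPowerSeries

/-- setting `X₁ = ⋯ = Xₙ = 0` -/
noncomputable def Coeff_eps (K : Type*) [Field K] (n : ℕ) :
    MvPowerSeries (Fin (n + 1)) K →+* PowerSeries K :=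
  (PowerSeries.map (constantCoeff (σ := Fin n) (R := K))).comp
    ((finSuccEquiv K n : MvPowerSeries (Fin (n + 1)) K ≃ₐ[K] _) : _ →+* _)

theorem Coeff_coeff_eps {K : Type*} [Field K] {n : ℕ} (g : MvPowerSeries (Fin (n + 1)) K) (k : ℕ) :
    PowerSeries.coeff k (Coeff_eps K n g) = coeff (Finsupp.single 0 k) g := by
  have h1 : (Finsupp.cons k (0 : Fin n →₀ ℕ)) = Finsupp.single 0 k :=
    Finsupp.cons_eq_single_zero_iff.2 ⟨rfl, rfl⟩
  show PowerSeries.coeff k (PowerSeries.map constantCoeff (finSuccEquiv K n g)) = _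
  rw [PowerSeries.coeff_map, ← coeff_zero_eq_constantCoeff_apply, coeff_coeff_finSuccEquiv, h1]

theorem Coeff_eps_X_zero {K : Type*} [Field K] {n : ℕ} :
    Coeff_eps K n (X 0) = PowerSeries.X := by
  show PowerSeries.map constantCoeff (finSuccEquiv K n (X 0)) = _
  rw [finSuccEquiv_X_zero, PowerSeries.map_X]

theorem Coeff_eps_X_succ {K : Type*} [Field K] {n : ℕ} (j : Fin n) :
    Coeff_eps K n (X j.succ) = 0 := by
  show PowerSeries.map constantCoeff (finSuccEquiv K n (X j.succ)) = _
  rw [finSuccEquiv_X_succ, PowerSeries.map_C, constantCoeff_X, map_zero]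

theorem Coeff_eps_C {K : Type*} [Field K] {n : ℕ} (a : K) :
    Coeff_eps K n (C a) = PowerSeries.C a := by
  show PowerSeries.map constantCoeff (finSuccEquiv K n (C a)) = _
  rw [finSuccEquiv_C, PowerSeries.map_C, constantCoeff_C]

theorem Coeff_eps_shear {K : Type*} [Field K] {n : ℕ} (c : Fin (n + 1) → K) (hc : c 0 = 0)
    (i : Fin (n + 1)) :
    Coeff_eps K n (shear c i) = PowerSeries.C (if i = 0 then 1 else c i) * PowerSeries.X := by
  unfold shear
  rw [map_add, map_mul, Coeff_eps_C, Coeff_eps_X_zero]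
  refine Fin.cases ?_ (fun j => ?_) i
  · rw [Coeff_eps_X_zero, hc, map_zero, zero_mul, add_zero, if_pos rfl, map_one, one_mul]
  · rw [Coeff_eps_X_succ, zero_add, if_neg (Fin.succ_ne_zero j)]

theorem Coeff_coeff_prod {K : Type*} [Field K] {n : ℕ} (c : Fin (n + 1) → K) (hc : c 0 = 0)
    (d : Fin (n + 1) →₀ ℕ) (k : ℕ) :
    coeff (Finsupp.single 0 k) (d.prod fun i e => shear c i ^ e) =
      if k = ∑ i, d i then ∏ i, (if i = 0 then 1 else c i) ^ d i else 0 := by
  rw [← Coeff_coeff_eps, Finsupp.prod_fintype _ _ (fun i => pow_zero _), map_prod]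
  simp only [map_pow, Coeff_eps_shear c hc, mul_pow]
  rw [Finset.prod_mul_distrib, Finset.prod_pow_eq_pow_sum]
  simp only [← map_pow]
  rw [← map_prod, PowerSeries.coeff_C_mul, PowerSeries.coeff_X_pow, mul_ite, mul_one, mul_zero]

/-- CHG2: the coefficient of `X₀ ^ k` after the shear. -/
theorem coeff_subst_shear {K : Type*} [Field K] {n : ℕ} (c : Fin (n + 1) → K) (hc : c 0 = 0)
    (f : MvPowerSeries (Fin (n + 1)) K) (k : ℕ) :
    coeff (Finsupp.single 0 k) (subst (shear c) f) =
      ∑ d ∈ Finset.finsuppAntidiag Finset.univ k,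
        coeff d f * ∏ i, (if i = 0 then 1 else c i) ^ d i := by
  rw [coeff_subst (hasSubst_shear c) f (Finsupp.single 0 k),
    finsum_eq_sum_of_support_subset (s := Finset.finsuppAntidiag Finset.univ k)]
  · refine Finset.sum_congr rfl fun d hd => ?_
    rw [Coeff_coeff_prod c hc, if_pos (Finset.mem_finsuppAntidiag.1 hd).1.symm, smul_eq_mul]
  · intro d hd
    rw [Function.mem_support, Coeff_coeff_prod c hc] at hd
    rw [Finset.mem_coe, Finset.mem_finsuppAntidiag]
    refine ⟨?_, Finset.subset_univ _⟩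
    by_contra hne
    rw [if_neg (fun h => hne h.symm), smul_zero] at hd
    exact hd rfl

end Fermat.Agent.Lib.MvPSUFD
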