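/-
Lib / MvPSUFD, node CHG3: a nonzero form of degree `k` does not vanish identically on the hyperplane `x₀ = 1`.
Recipe: `P := ∑ d ∈ finsuppAntidiag univ k, MvPolynomial.monomial d (a d)` is nonzero (its coefficient at `d` is
`a d`), so `P * X 0 ≠ 0`, and (`MvPolynomial.funext`, `K` infinite) there is `b` with `eval b (P * X 0) ≠ 0`: `b 0 ≠ 0`,
`eval b P ≠ 0`.  Put `c i := if i = 0 then 0 else b i / b 0`.  Then
`eval b P = ∑ a d * ∏ b i ^ d i = b 0 ^ k * ∑ a d * ∏ (if i = 0 then 1 else c i) ^ d i` because `∑ d i = k`.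
-/
import Fermat.Agent.Lib.MvPSUFD.Defs

set_option autoImplicit false

namespace Fermat.Agent.Lib.MvPSUFD

/-- CHG3: a nonzero form does not vanish identically on the hyperplane `x₀ = 1`. -/
theorem exists_sum_ne_zero {K : Type*} [Field K] [Infinite K] {n : ℕ} (k : ℕ)
    (a : (Fin (n + 1) →₀ ℕ) → K) (ha : ∃ d ∈ Finset.finsuppAntidiag Finset.univ k, a d ≠ 0) :
    ∃ c : Fin (n + 1) → K, c 0 = 0 ∧
      ∑ d ∈ Finset.finsuppAntidiag (Finset.univ : Finset (Fin (n + 1))) k,
        a d * ∏ i, (if i = 0 then 1 else c i) ^ d i ≠ 0 := by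
  classical
  obtain ⟨d₀, hd₀, had₀⟩ := ha
  set S := Finset.finsuppAntidiag (Finset.univ : Finset (Fin (n + 1))) k with hS
  set P : MvPolynomial (Fin (n + 1)) K := ∑ d ∈ S, MvPolynomial.monomial d (a d) with hP
  have hP0 : P ≠ 0 := by
    intro h0
    apply had₀
    have h1 : MvPolynomial.coeff d₀ P = a d₀ := by
      rw [hP, MvPolynomial.coeff_sum, Finset.sum_eq_single d₀]
      · rw [MvPolynomial.coeff_monomial, if_pos rfl]
      · intro d _ hd
        rw [MvPolynomial.coeff_monomial, if_neg hd]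
      · intro h
        exact absurd hd₀ h
    rw [← h1, h0, MvPolynomial.coeff_zero]
  have hPX : P * MvPolynomial.X 0 ≠ 0 := mul_ne_zero hP0 (MvPolynomial.X_ne_zero 0)
  obtain ⟨b, hb⟩ : ∃ b : Fin (n + 1) → K, MvPolynomial.eval b (P * MvPolynomial.X 0) ≠ 0 := by
    by_contra hcon
    push Not at hcon
    exact hPX (MvPolynomial.funext fun b => by rw [hcon b, map_zero])
  rw [map_mul, MvPolynomial.eval_X] at hb
  have hb0 : b 0 ≠ 0 := right_ne_zero_of_mul hb
  have hbP : MvPolynomial.eval b P ≠ 0 := left_ne_zero_of_mul hb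
  refine ⟨fun i => if i = 0 then 0 else b i / b 0, if_pos rfl, fun hsum => hbP ?_⟩
  have key : MvPolynomial.eval b P = b 0 ^ k *
      ∑ d ∈ S, a d * ∏ i, (if i = 0 then 1 else (if i = 0 then 0 else b i / b 0)) ^ d i := by
    rw [hP, map_sum, Finset.mul_sum]
    refine Finset.sum_congr rfl fun d hd => ?_
    have hdk : ∑ i, d i = k := (Finset.mem_finsuppAntidiag.1 hd).1
    rw [MvPolynomial.eval_monomial, Finsupp.prod_fintype _ _ (fun i => pow_zero _), ← hdk,
      ← Finset.prod_pow_eq_pow_sum, mul_left_comm, ← Finset.prod_mul_distrib]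
    congr 1
    refine Finset.prod_congr rfl fun i _ => ?_
    by_cases hi : i = 0
    · rw [if_pos hi, one_pow, mul_one, hi]
    · rw [if_neg hi, if_neg hi, ← mul_pow, mul_div_cancel₀ _ hb0]
  rw [key, hsum, mul_zero]

end Fermat.Agent.Lib.MvPSUFD
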